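/-
S55 / F-abs / SW-Defs : part of the Euler characteristic sandwich (see F/SW/Main.lean).
-/
import Fermat.Agent.S55.F.Chi

set_option autoImplicit false

namespace Fermat.Agent.S55.F

open Representation Module

noncomputable section

variable {p : ℕ} [Fact p.Prime] {Γ : Type} [Group Γ] (C : CohTheory (ZMod p) Γ)

/-- the numerical hypothesis of the sandwich -/
structure Mult (Γ₀ : Subgroup Γ) : Prop where
  fin : ∀ U : Subgroup Γ, C.IsOpen U → U ≤ Γ₀ → C.FinCoh (X (ZMod p) U)
  mul : ∀ U U' : Subgroup Γ, C.IsOpen U' → U' ≤ U → U ≤ Γ₀ →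
    C.chi (X (ZMod p) U') = (U'.relIndex U : ℤ) * C.chi (X (ZMod p) U)

end

end Fermat.Agent.S55.F
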