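/-
S55 / F-abs / SW-Trivial : part of the Euler characteristic sandwich (see F/SW/Main.lean).
-/
import Fermat.Agent.S55.F.SW.Defs
import Fermat.Agent.S55.F.RT.Coind
import Fermat.Agent.S55.F.RT.KerCoker

set_option autoImplicit false

namespace Fermat.Agent.S55.F

open Representation Module

noncomputable section

variable {p : ℕ} [Fact p.Prime] {Γ : Type} [Group Γ] (C : CohTheory (ZMod p) Γ)

variable {N : Type} [AddCommGroup N] [Module (ZMod p) N]

/-- the cohomology of a representation on the zero module vanishes -/
theorem SW.subsingleton_H1 {V : Type} [AddCommGroup V] [Module (ZMod p) V] [Subsingleton V]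
    (ρ : Representation (ZMod p) Γ V) : Subsingleton (C.H1 ρ) := by
  have h0 : IntertwiningMap.id ρ = 0 := by
    ext x
    exact Subsingleton.elim _ _
  have h1 := C.map1_id ρ
  rw [h0, map_zero] at h1
  refine ⟨fun a b => ?_⟩
  have ha := LinearMap.congr_fun h1 a
  have hb := LinearMap.congr_fun h1 b
  simp only [LinearMap.zero_apply, LinearMap.id_apply] at ha hb
  rw [← ha, ← hb]

theorem SW.subsingleton_H2 {V : Type} [AddCommGroup V] [Module (ZMod p) V] [Subsingleton V]
    (ρ : Representation (ZMod p) Γ V) : Subsingleton (C.H2 ρ) := by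
  have h0 : IntertwiningMap.id ρ = 0 := by
    ext x
    exact Subsingleton.elim _ _
  have h1 := C.map2_id ρ
  rw [h0, map_zero] at h1
  refine ⟨fun a b => ?_⟩
  have ha := LinearMap.congr_fun h1 a
  have hb := LinearMap.congr_fun h1 b
  simp only [LinearMap.zero_apply, LinearMap.id_apply] at ha hb
  rw [← ha, ← hb]

theorem SW.isOpen_ker_coind_trivial {W : Subgroup Γ} (hW : C.IsOpen W)
    (N : Type) [AddCommGroup N] [Module (ZMod p) N] :
    C.IsOpen (coindS W (Representation.trivial (ZMod p) W N)).ker := by
  refine isOpen_ker_coindS C hW _ (C.isOpen_mono ?_ hW)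
  intro g hg
  exact ⟨⟨g, hg⟩, (MonoidHom.mem_ker (f := Representation.trivial (ZMod p) W N)).2 rfl, rfl⟩

theorem SW.coind_trivial_aux {W : Subgroup Γ} (hW : C.IsOpen W)
    (hX : C.FinCoh (X (ZMod p) W)) (n : ℕ) :
    ∀ (N : Type) [AddCommGroup N] [Module (ZMod p) N] [Module.Finite (ZMod p) N],
      finrank (ZMod p) N = n →
      C.FinCoh (coindS W (Representation.trivial (ZMod p) W N)) ∧
      C.chi (coindS W (Representation.trivial (ZMod p) W N)) =
        finrank (ZMod p) N * C.chi (X (ZMod p) W) := by
  have hfi : W.FiniteIndex := C.finiteIndex hW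
  induction n with
  | zero =>
    intro N _ _ _ hN
    have hs : Subsingleton N := Module.finrank_zero_iff.1 hN
    have hs' : Subsingleton (coindV W.subtype (Representation.trivial (ZMod p) W N)) :=
      ⟨fun a b => Subtype.ext (funext fun g => Subsingleton.elim _ _)⟩
    have h1 := SW.subsingleton_H1 C (coindS W (Representation.trivial (ZMod p) W N))
    have h2 := SW.subsingleton_H2 C (coindS W (Representation.trivial (ZMod p) W N))
    refine ⟨⟨inferInstance, inferInstance⟩, ?_⟩
    rw [hN, CohTheory.chi, finrank_zero_of_subsingleton, finrank_zero_of_subsingleton,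
      finrank_zero_of_subsingleton]
    simp
  | succ n ih =>
    intro N _ _ _ hN
    obtain ⟨Q, _, _, _, S, hQ, s, hs⟩ := exists_SES_trivial (k := ZMod p) (Γ := W) N (by omega)
    obtain ⟨hQf, hQc⟩ := ih Q (by omega)
    have hP := SW.isOpen_ker_coind_trivial C hW N
    refine ⟨CohTheory.FinCoh.mid C (S.coind W) hP hX hQf, ?_⟩
    have h := C.chi_of_split (S.coind W) hP hX hQf (coindMap W.subtype s) (fun x => by
      apply Subtype.ext
      funext g
      exact hs (x.1 g))
    rw [h, hQc, ← hQ]
    push_cast
    ring

/-- (SW-0a) coinduction of a trivial module: induction on the dimension with SPLIT sequences -/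
theorem SW.coind_trivial {W : Subgroup Γ} (hW : C.IsOpen W) (hX : C.FinCoh (X (ZMod p) W))
    (N : Type) [AddCommGroup N] [Module (ZMod p) N] [Module.Finite (ZMod p) N] :
    C.FinCoh (coindS W (Representation.trivial (ZMod p) W N)) ∧
      C.chi (coindS W (Representation.trivial (ZMod p) W N)) =
        finrank (ZMod p) N * C.chi (X (ZMod p) W) :=
  SW.coind_trivial_aux C hW hX _ N rfl

end

end Fermat.Agent.S55.F
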