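/-
S55 / F-abs / SW-Upper : part of the Euler characteristic sandwich (see F/SW/Main.lean).
-/
import Fermat.Agent.S55.F.SW.Defs
import Fermat.Agent.S55.F.RT.Coind
import Fermat.Agent.S55.F.RT.PGroup

set_option autoImplicit false

namespace Fermat.Agent.S55.F

open Representation Module

noncomputable section

variable {p : ℕ} [Fact p.Prime] {Γ : Type} [Group Γ] (C : CohTheory (ZMod p) Γ)

/-- cohomology of a representation on the zero module vanishes -/
theorem SW.upper_subsingleton_H1 {V : Type} [AddCommGroup V] [Module (ZMod p) V] [Subsingleton V]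
    (ρ : Representation (ZMod p) Γ V) : Subsingleton (C.H1 ρ) := by
  have h0 : IntertwiningMap.id ρ = 0 := by
    ext x
    exact Subsingleton.elim _ _
  have h1 := C.map1_id ρ
  rw [h0, map_zero] at h1
  refine ⟨fun a b => ?_⟩
  have ha := LinearMap.congr_fun h1 a
  have hb := LinearMap.congr_fun h1 b
  simp only [LinearMap.zero_apply, LinearMap.id_apply] at ha hb
  rw [← ha, ← hb]

theorem SW.upper_subsingleton_H2 {V : Type} [AddCommGroup V] [Module (ZMod p) V] [Subsingleton V]
    (ρ : Representation (ZMod p) Γ V) : Subsingleton (C.H2 ρ) := by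
  have h0 : IntertwiningMap.id ρ = 0 := by
    ext x
    exact Subsingleton.elim _ _
  have h1 := C.map2_id ρ
  rw [h0, map_zero] at h1
  refine ⟨fun a b => ?_⟩
  have ha := LinearMap.congr_fun h1 a
  have hb := LinearMap.congr_fun h1 b
  simp only [LinearMap.zero_apply, LinearMap.id_apply] at ha hb
  rw [← ha, ← hb]

theorem SW.upper_aux {U₁ : Subgroup Γ} (hU₁ : C.IsOpen U₁) (hX : C.FinCoh (X (ZMod p) U₁)) (n : ℕ) :
    ∀ (N : Type) [AddCommGroup N] [Module (ZMod p) N] [Module.Finite (ZMod p) N]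
      (σ : Representation (ZMod p) U₁ N), C.IsOpen (σ.ker.map U₁.subtype) →
      IsPGroup p (U₁ ⧸ σ.ker) → finrank (ZMod p) N = n →
      C.FinCoh (coindS U₁ σ) ∧
        C.chi (coindS U₁ σ) ≤ finrank (ZMod p) N * C.chi (X (ZMod p) U₁) := by
  have hfi : U₁.FiniteIndex := C.finiteIndex hU₁
  induction n with
  | zero =>
    intro N _ _ _ σ hσ hp hn
    have hN : Subsingleton N := Module.finrank_zero_iff.1 hn
    have hV : Subsingleton (coindV U₁.subtype σ) :=
      ⟨fun a b => Subtype.ext (funext fun g => Subsingleton.elim _ _)⟩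
    have h1 := SW.upper_subsingleton_H1 C (coindS U₁ σ)
    have h2 := SW.upper_subsingleton_H2 C (coindS U₁ σ)
    refine ⟨⟨inferInstance, inferInstance⟩, ?_⟩
    have h3 : Subsingleton (coindS U₁ σ).invariants := inferInstance
    rw [CohTheory.chi, hn, Module.finrank_zero_of_subsingleton, Module.finrank_zero_of_subsingleton,
      Module.finrank_zero_of_subsingleton]
    simp
  | succ n ih =>
    intro N _ _ _ σ hσ hp hn
    obtain ⟨Q, _, _, _, τ, S, hQ, hle, hpτ⟩ := exists_SES_of_pGroup σ hp (by omega)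
    have hτ : C.IsOpen (τ.ker.map U₁.subtype) := C.isOpen_mono (Subgroup.map_mono hle) hσ
    obtain ⟨ih1, ih2⟩ := ih Q τ hτ hpτ (by omega)
    have hopen := isOpen_ker_coindS C hU₁ σ hσ
    have hmid : C.FinCoh (coindS U₁ σ) := CohTheory.FinCoh.mid C (S.coind U₁) hopen hX ih1
    refine ⟨hmid, ?_⟩
    have h1 := C.chi_le (S.coind U₁) hopen hX hmid ih1
    have h2 : (finrank (ZMod p) N : ℤ) = finrank (ZMod p) Q + 1 := by exact_mod_cast hQ.symm
    rw [h2]
    linarith

variable {N : Type} [AddCommGroup N] [Module (ZMod p) N]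

/-- (SW-1) upper bound: filtration with trivial quotients -/
theorem SW.upper {U₁ : Subgroup Γ} (hU₁ : C.IsOpen U₁) (hX : C.FinCoh (X (ZMod p) U₁))
    [Module.Finite (ZMod p) N] (σ : Representation (ZMod p) U₁ N)
    (hσ : C.IsOpen (σ.ker.map U₁.subtype)) (hp : IsPGroup p (U₁ ⧸ σ.ker)) :
    C.FinCoh (coindS U₁ σ) ∧
      C.chi (coindS U₁ σ) ≤ finrank (ZMod p) N * C.chi (X (ZMod p) U₁) :=
  SW.upper_aux C hU₁ hX _ N σ hσ hp rfl

end

end Fermat.Agent.S55.F
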