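/-
S55 / F-abs / SW-Lower : part of the Euler characteristic sandwich (see F/SW/Main.lean).
-/
import Fermat.Agent.S55.F.SW.Upper
import Fermat.Agent.S55.F.SW.Trivial
import Fermat.Agent.S55.F.RT.Trans

set_option autoImplicit false

namespace Fermat.Agent.S55.F

open Representation Module

noncomputable section

variable {p : ℕ} [Fact p.Prime] {Γ : Type} [Group Γ] (C : CohTheory (ZMod p) Γ)

variable {N : Type} [AddCommGroup N] [Module (ZMod p) N]

/-- abstract form of the lower bound: `σ` embeds in a representation `σP` of `U₁` whose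
coinduction to `Γ` is `CoInd_W^Γ N` (`N` with trivial action). -/
theorem SW.lower_aux {U₁ W : Subgroup Γ} [(W.subgroupOf U₁).Normal] (hW : W ≤ U₁)
    (hWo : C.IsOpen W) (hXW : C.FinCoh (X (ZMod p) W)) (hXU : C.FinCoh (X (ZMod p) U₁))
    (hmul : C.chi (X (ZMod p) W) = (W.relIndex U₁ : ℤ) * C.chi (X (ZMod p) U₁))
    (hp : IsPGroup p (U₁ ⧸ W.subgroupOf U₁))
    [Module.Finite (ZMod p) N] (σ : Representation (ZMod p) U₁ N)
    (hσ : W.subgroupOf U₁ ≤ σ.ker)
    {P Q : Type} [AddCommGroup P] [Module (ZMod p) P] [AddCommGroup Q] [Module (ZMod p) Q]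
    [Module.Finite (ZMod p) P]
    {σP : Representation (ZMod p) U₁ P} {τ : Representation (ZMod p) U₁ Q} (S₀ : SES σ σP τ)
    (hmid : W.subgroupOf U₁ ≤ σP.ker)
    (e : (coindS U₁ σP).Equiv (coindS W (Representation.trivial (ZMod p) W N)))
    (hdimP : finrank (ZMod p) P = W.relIndex U₁ * finrank (ZMod p) N) :
    finrank (ZMod p) N * C.chi (X (ZMod p) U₁) ≤ C.chi (coindS U₁ σ) := by
  have hU₁ : C.IsOpen U₁ := C.isOpen_mono hW hWo
  have : U₁.FiniteIndex := C.finiteIndex hU₁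
  have : Module.Finite (ZMod p) Q := S₀.finite_right
  have hτ : W.subgroupOf U₁ ≤ τ.ker := hmid.trans S₀.ker_le_right
  -- upper bounds
  obtain ⟨hfσ, -⟩ := SW.upper C hU₁ hXU σ (isOpen_map_ker_of_le C hW hWo σ hσ)
    (isPGroup_quot_of_le hσ hp)
  obtain ⟨hfτ, hcτ⟩ := SW.upper C hU₁ hXU τ (isOpen_map_ker_of_le C hW hWo _ hτ)
    (isPGroup_quot_of_le hτ hp)
  -- the middle term
  obtain ⟨hft, hct⟩ := SW.coind_trivial C hWo hXW N
  have hfm : C.FinCoh (coindS U₁ σP) := hft.of_equiv C e.symm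
  have hcm : C.chi (coindS U₁ σP) = finrank (ZMod p) N * C.chi (X (ZMod p) W) := by
    rw [C.chi_of_equiv e, hct]
  have hle := C.chi_le (S₀.coind U₁)
    (isOpen_ker_coindS C hU₁ _ (isOpen_map_ker_of_le C hW hWo _ hmid)) hfσ hfm hfτ
  -- dimensions
  have hdim := S₀.finrank_eq
  rw [hdimP] at hdim
  have hdim' : ((W.relIndex U₁ : ℤ)) * finrank (ZMod p) N =
      finrank (ZMod p) N + finrank (ZMod p) Q := by
    exact_mod_cast hdim
  rw [hcm, hmul] at hle
  have h3 : (finrank (ZMod p) N : ℤ) * ((W.relIndex U₁ : ℤ) * C.chi (X (ZMod p) U₁)) =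
      finrank (ZMod p) N * C.chi (X (ZMod p) U₁) +
        finrank (ZMod p) Q * C.chi (X (ZMod p) U₁) := by
    rw [← add_mul, ← hdim']
    ring
  rw [h3] at hle
  linarith

/-- (SW-2) lower bound: embed `σ` into `CoInd_W^{U₁} Res σ` -/
theorem SW.lower {U₁ W : Subgroup Γ} [(W.subgroupOf U₁).Normal] (hW : W ≤ U₁)
    (hWo : C.IsOpen W) (hXW : C.FinCoh (X (ZMod p) W)) (hXU : C.FinCoh (X (ZMod p) U₁))
    (hmul : C.chi (X (ZMod p) W) = (W.relIndex U₁ : ℤ) * C.chi (X (ZMod p) U₁))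
    (hp : IsPGroup p (U₁ ⧸ W.subgroupOf U₁))
    [Module.Finite (ZMod p) N] (σ : Representation (ZMod p) U₁ N)
    (hσ : W.subgroupOf U₁ ≤ σ.ker) :
    finrank (ZMod p) N * C.chi (X (ZMod p) U₁) ≤ C.chi (coindS U₁ σ) := by
  have : W.FiniteIndex := C.finiteIndex hWo
  have : (W.subgroupOf U₁).FiniteIndex := inferInstance
  exact SW.lower_aux C hW hWo hXW hXU hmul hp σ hσ
    (cokerSES (unit (W.subgroupOf U₁) σ) (unit_injective (W.subgroupOf U₁) σ))
    (subgroupOf_le_ker_coindRes U₁ W σ hσ) (coindTransRes U₁ W hW σ hσ)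
    (finrank_coindV (W.subgroupOf U₁) _)

end

end Fermat.Agent.S55.F
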