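/-
S55 / F-abs / SW-CoindSurj : part of the Euler characteristic sandwich (see F/SW/Main.lean).
-/
import Fermat.Agent.S55.F.SW.Lower

set_option autoImplicit false

namespace Fermat.Agent.S55.F

open Representation Module

noncomputable section

variable {p : ℕ} [Fact p.Prime] {Γ : Type} [Group Γ] (C : CohTheory (ZMod p) Γ)

variable {N : Type} [AddCommGroup N] [Module (ZMod p) N]

/-- upper and lower bound together: the Euler characteristic of a coinduced module -/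
theorem SW.chi_coindS_eq {U₁ W : Subgroup Γ} [(W.subgroupOf U₁).Normal] (hW : W ≤ U₁)
    (hWo : C.IsOpen W) (hXW : C.FinCoh (X (ZMod p) W)) (hXU : C.FinCoh (X (ZMod p) U₁))
    (hmul : C.chi (X (ZMod p) W) = (W.relIndex U₁ : ℤ) * C.chi (X (ZMod p) U₁))
    (hp : IsPGroup p (U₁ ⧸ W.subgroupOf U₁))
    [Module.Finite (ZMod p) N] (σ : Representation (ZMod p) U₁ N)
    (hσ : W.subgroupOf U₁ ≤ σ.ker) :
    C.FinCoh (coindS U₁ σ) ∧
      C.chi (coindS U₁ σ) = finrank (ZMod p) N * C.chi (X (ZMod p) U₁) := by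
  have hU₁ : C.IsOpen U₁ := C.isOpen_mono hW hWo
  obtain ⟨h1, h2⟩ := SW.upper C hU₁ hXU σ (isOpen_map_ker_of_le C hW hWo σ hσ)
    (isPGroup_quot_of_le hσ hp)
  exact ⟨h1, le_antisymm h2 (SW.lower C hW hWo hXW hXU hmul hp σ hσ)⟩

/-- (SW-3) right exactness after coinduction from the Sylow subgroup -/
theorem SW.coind_surjective {U₁ W : Subgroup Γ} [(W.subgroupOf U₁).Normal] (hW : W ≤ U₁)
    (hWo : C.IsOpen W) (hXW : C.FinCoh (X (ZMod p) W)) (hXU : C.FinCoh (X (ZMod p) U₁))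
    (hmul : C.chi (X (ZMod p) W) = (W.relIndex U₁ : ℤ) * C.chi (X (ZMod p) U₁))
    (hp : IsPGroup p (U₁ ⧸ W.subgroupOf U₁))
    {R P M : Type} [AddCommGroup R] [Module (ZMod p) R] [AddCommGroup P] [Module (ZMod p) P]
    [AddCommGroup M] [Module (ZMod p) M] [Module.Finite (ZMod p) P]
    {σR : Representation (ZMod p) U₁ R} {σP : Representation (ZMod p) U₁ P}
    {σM : Representation (ZMod p) U₁ M} (S : SES σR σP σM) (hσ : W.subgroupOf U₁ ≤ σP.ker) :
    Function.Surjective (C.map2 (S.coind U₁).π) := by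
  have hU₁ : C.IsOpen U₁ := C.isOpen_mono hW hWo
  have hfi : U₁.FiniteIndex := C.finiteIndex hU₁
  have hRf : Module.Finite (ZMod p) R := S.finite_left
  have hMf : Module.Finite (ZMod p) M := S.finite_right
  obtain ⟨hR1, hR2⟩ := SW.chi_coindS_eq C hW hWo hXW hXU hmul hp σR (hσ.trans S.ker_le_left)
  obtain ⟨hP1, hP2⟩ := SW.chi_coindS_eq C hW hWo hXW hXU hmul hp σP hσ
  obtain ⟨hM1, hM2⟩ := SW.chi_coindS_eq C hW hWo hXW hXU hmul hp σM (hσ.trans S.ker_le_right)
  refine C.map2_surjective_of_chi_eq (S.coind U₁)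
    (isOpen_ker_coindS C hU₁ σP (isOpen_map_ker_of_le C hW hWo σP hσ)) hR1 hP1 hM1 ?_
  rw [hR2, hP2, hM2, S.finrank_eq]
  push_cast
  rw [add_mul]

end

end Fermat.Agent.S55.F
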