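/-
S55 / F-abs / SW-Descent : part of the Euler characteristic sandwich (see F/SW/Main.lean).
-/
import Fermat.Agent.S55.F.SW.Defs
import Fermat.Agent.S55.F.RT.Trace
import Fermat.Agent.S55.F.RT.Coind

set_option autoImplicit false

namespace Fermat.Agent.S55.F

open Representation Module

noncomputable section

variable {p : ℕ} [Fact p.Prime] {Γ : Type} [Group Γ] (C : CohTheory (ZMod p) Γ)

variable {N : Type} [AddCommGroup N] [Module (ZMod p) N]

/-- (SW-4) descent along a subgroup of index prime to `p` -/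
theorem SW.descent {U₁ : Subgroup Γ} [U₁.FiniteIndex] (hidx : ¬ p ∣ U₁.index)
    {P M : Type} [AddCommGroup P] [Module (ZMod p) P] [AddCommGroup M] [Module (ZMod p) M]
    {ρP : Representation (ZMod p) Γ P} {ρM : Representation (ZMod p) Γ M}
    (π : ρP.IntertwiningMap ρM)
    (h : Function.Surjective (C.map2 (coindMap U₁.subtype (resMap U₁.subtype π)))) :
    Function.Surjective (C.map2 π) := by
  intro x
  obtain ⟨z, hz⟩ := h (C.map2 (unit U₁ ρM) x)
  have e1 : π.comp (counit U₁ ρP)
      = (counit U₁ ρM).comp (coindMap U₁.subtype (resMap U₁.subtype π)) := by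
    ext y
    exact (counit_naturality U₁ π y).symm
  have e2 : (counit U₁ ρM).comp (unit U₁ ρM)
      = (U₁.index : ZMod p) • IntertwiningMap.id ρM := by
    ext n
    exact counit_unit U₁ ρM n
  have hu : (U₁.index : ZMod p) ≠ 0 := by
    intro h0
    exact hidx ((ZMod.natCast_eq_zero_iff _ _).mp h0)
  have h1 : C.map2 π (C.map2 (counit U₁ ρP) z) = (U₁.index : ZMod p) • x := by
    calc C.map2 π (C.map2 (counit U₁ ρP) z)
        = (C.map2 π ∘ₗ C.map2 (counit U₁ ρP)) z := rfl
      _ = (C.map2 (counit U₁ ρM) ∘ₗ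
            C.map2 (coindMap U₁.subtype (resMap U₁.subtype π))) z := by
          rw [← C.map2_comp, e1, C.map2_comp]
      _ = C.map2 (counit U₁ ρM) (C.map2 (unit U₁ ρM) x) := by
          rw [LinearMap.comp_apply, hz]
      _ = (C.map2 (counit U₁ ρM) ∘ₗ C.map2 (unit U₁ ρM)) x := rfl
      _ = (U₁.index : ZMod p) • x := by
          rw [← C.map2_comp, e2, map_smul, C.map2_id]
          rfl
  refine ⟨(U₁.index : ZMod p)⁻¹ • C.map2 (counit U₁ ρP) z, ?_⟩
  rw [map_smul, h1, smul_smul, inv_mul_cancel₀ hu, one_smul]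

end

end Fermat.Agent.S55.F
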