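/-
S55 / F-abs / SW-FinCoh : part of the Euler characteristic sandwich (see F/SW/Main.lean).
-/
import Fermat.Agent.S55.F.SW.Trivial
import Fermat.Agent.S55.F.RT.Trans

set_option autoImplicit false

namespace Fermat.Agent.S55.F

open Representation Module

noncomputable section

variable {p : ℕ} [Fact p.Prime] {Γ : Type} [Group Γ] (C : CohTheory (ZMod p) Γ)

variable {N : Type} [AddCommGroup N] [Module (ZMod p) N]

/-- the coinduced module `CoInd_V Res_V ρ`, `V = ker ρ ⊓ Γ₀`, has finite cohomology -/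
theorem SW.finCoh_coindRes {Γ₀ : Subgroup Γ} (hΓ₀ : C.IsOpen Γ₀)
    (hfin : ∀ U : Subgroup Γ, C.IsOpen U → U ≤ Γ₀ → C.FinCoh (X (ZMod p) U))
    [Module.Finite (ZMod p) N] (ρ : Representation (ZMod p) Γ N) (hρ : C.IsOpen ρ.ker) :
    C.FinCoh (coindRes (ρ.ker ⊓ Γ₀) ρ) := by
  have hV : C.IsOpen (ρ.ker ⊓ Γ₀) := C.isOpen_inf hρ hΓ₀
  have h1 := (SW.coind_trivial C hV (hfin _ hV inf_le_right) N).1
  exact CohTheory.FinCoh.of_equiv C (coindResEquivTrivial (ρ.ker ⊓ Γ₀) ρ inf_le_left).symm h1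

/-- stage 1 : `H¹` is finite -/
theorem SW.finite_H1 {Γ₀ : Subgroup Γ} (hΓ₀ : C.IsOpen Γ₀)
    (hfin : ∀ U : Subgroup Γ, C.IsOpen U → U ≤ Γ₀ → C.FinCoh (X (ZMod p) U))
    [Module.Finite (ZMod p) N] (ρ : Representation (ZMod p) Γ N) (hρ : C.IsOpen ρ.ker) :
    Module.Finite (ZMod p) (C.H1 ρ) := by
  have hV : C.IsOpen (ρ.ker ⊓ Γ₀) := C.isOpen_inf hρ hΓ₀
  have : (ρ.ker ⊓ Γ₀).FiniteIndex := C.finiteIndex hV
  exact C.finite_H1_left (cokerSES (unit (ρ.ker ⊓ Γ₀) ρ) (unit_injective _ ρ))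
    (isOpen_ker_coindRes C hV ρ hρ) (SW.finCoh_coindRes C hΓ₀ hfin ρ hρ).1

/-- (SW-0b) finiteness of the cohomology of every admissible finite module -/
theorem SW.finCoh {Γ₀ : Subgroup Γ} (hΓ₀ : C.IsOpen Γ₀)
    (hfin : ∀ U : Subgroup Γ, C.IsOpen U → U ≤ Γ₀ → C.FinCoh (X (ZMod p) U))
    [Module.Finite (ZMod p) N] (ρ : Representation (ZMod p) Γ N) (hρ : C.IsOpen ρ.ker) :
    C.FinCoh ρ := by
  have hV : C.IsOpen (ρ.ker ⊓ Γ₀) := C.isOpen_inf hρ hΓ₀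
  have : (ρ.ker ⊓ Γ₀).FiniteIndex := C.finiteIndex hV
  have hI : C.IsOpen (coindRes (ρ.ker ⊓ Γ₀) ρ).ker := isOpen_ker_coindRes C hV ρ hρ
  let S := cokerSES (unit (ρ.ker ⊓ Γ₀) ρ) (unit_injective _ ρ)
  refine ⟨SW.finite_H1 C hΓ₀ hfin ρ hρ, ?_⟩
  exact C.finite_H2_left S hI
    (SW.finite_H1 C hΓ₀ hfin _ (C.isOpen_mono S.ker_le_right hI))
    (SW.finCoh_coindRes C hΓ₀ hfin ρ hρ).2

end

end Fermat.Agent.S55.F
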