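/-
S55 / F-abs / SW-Main : part of the Euler characteristic sandwich (see F/SW/Main.lean).
-/
import Fermat.Agent.S55.F.SW.CoindSurj
import Fermat.Agent.S55.F.SW.Descent
import Fermat.Agent.S55.F.SW.FinCoh

set_option autoImplicit false

namespace Fermat.Agent.S55.F

open Representation Module

noncomputable section

variable {p : ℕ} [Fact p.Prime] {Γ : Type} [Group Γ] (C : CohTheory (ZMod p) Γ)

variable {N : Type} [AddCommGroup N] [Module (ZMod p) N]

/-- (SW) THE SANDWICH THEOREM: `H²` is right exact -/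
theorem SW.main {Γ₀ : Subgroup Γ} [Γ₀.Normal] (hΓ₀ : C.IsOpen Γ₀) (hidx : ¬ p ∣ Γ₀.index)
    (hM : Mult C Γ₀)
    {R P M : Type} [AddCommGroup R] [Module (ZMod p) R] [AddCommGroup P] [Module (ZMod p) P]
    [AddCommGroup M] [Module (ZMod p) M] [Module.Finite (ZMod p) P]
    {ρR : Representation (ZMod p) Γ R} {ρP : Representation (ZMod p) Γ P}
    {ρM : Representation (ZMod p) Γ M} (S : SES ρR ρP ρM) (hP : C.IsOpen ρP.ker) :
    Function.Surjective (C.map2 S.π) := by
  set W : Subgroup Γ := (ρP.ker ⊓ Γ₀).normalCore with hWdef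
  have hWo : C.IsOpen W := C.isOpen_normalCore (C.isOpen_inf hP hΓ₀)
  have hWle : W ≤ ρP.ker ⊓ Γ₀ := Subgroup.normalCore_le _
  have hWΓ : W ≤ Γ₀ := hWle.trans inf_le_right
  have hWP : W ≤ ρP.ker := hWle.trans inf_le_left
  have hWn : W.Normal := Subgroup.normalCore_normal _
  have hWfi : W.FiniteIndex := C.finiteIndex hWo
  have hΓfi : Γ₀.FiniteIndex := C.finiteIndex hΓ₀
  obtain ⟨U₁, hWU, hU₁idx, hpU⟩ := exists_sylow_over (p := p) W
  have hUΓ : U₁ ≤ Γ₀ := le_of_isPGroup_of_not_dvd_index hWΓ hWU hpU hidx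
  have hUo : C.IsOpen U₁ := C.isOpen_mono hWU hWo
  have hUfi : U₁.FiniteIndex := C.finiteIndex hUo
  have hsurj := SW.coind_surjective C hWU hWo (hM.fin W hWo hWΓ) (hM.fin U₁ hUo hUΓ)
    (hM.mul U₁ W hWo hWU hUΓ) hpU (S.res U₁.subtype) (by
      intro u hu
      exact hWP (Subgroup.mem_subgroupOf.mp hu))
  exact SW.descent C hU₁idx S.π hsurj

end

end Fermat.Agent.S55.F
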